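import Fermat.Agent.MordellWeil.Structure
import Mathlib.Tactic

/-!
# Independent points stay independent modulo large primes

In a finitely generated abelian group an element `Q` none of whose nonzero multiples is a multiple
of an element `P` of infinite order gives, for all large primes `p`, a pair which is independent
modulo `p` times the group.
-/

set_option autoImplicit false

namespace FA.LinearDependence

/-- An element with no free coordinate has finite order. -/
theorem isOfFinAddOrder_of_snd_eq_zero {G : Type*} [AddCommGroup G] {r : ℕ}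
    (e : G ≃+ AddCommGroup.torsion G × (Fin r → ℤ)) {R : G} (h : (e R).2 = 0) :
    IsOfFinAddOrder R := by
  obtain ⟨n, hn, hn0⟩ := isOfFinAddOrder_iff_nsmul_eq_zero.mp (e R).1.2
  refine isOfFinAddOrder_iff_nsmul_eq_zero.mpr ⟨n, hn, e.injective ?_⟩
  rw [map_nsmul, map_zero]
  exact Prod.ext (Subtype.ext hn0) (by rw [Prod.smul_snd, h, smul_zero]; rfl)

/-- **Independence modulo large primes.** -/
theorem exists_bound_independent {G : Type*} [AddCommGroup G] [AddGroup.FG G] {P Q : G}
    (hP : ¬ IsOfFinAddOrder P) (hne : ∀ a b : ℤ, a ≠ 0 → a • Q ≠ b • P) :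
    ∃ M : ℕ, ∀ p : ℕ, p.Prime → M < p →
      ∀ a b : ℤ, ¬ ((p : ℤ) ∣ a ∧ (p : ℤ) ∣ b) → ∀ R : G, p • R ≠ a • P + b • Q := by
  obtain ⟨r, ⟨e⟩⟩ := FA.MordellWeil.exists_equiv_torsion_prod G
  set u := (e P).2
  set v := (e Q).2
  -- some minor of the two coordinate vectors is nonzero
  obtain ⟨i, j, hD⟩ : ∃ i j, u i * v j - u j * v i ≠ 0 := by
    by_contra hc
    push Not at hc
    obtain ⟨i, hi⟩ : ∃ i, u i ≠ 0 := by
      by_contra h0
      push Not at h0
      exact hP (isOfFinAddOrder_of_snd_eq_zero e (funext h0))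
    have h2 : (e (u i • Q - v i • P)).2 = 0 := by
      funext j
      simp only [map_sub, map_zsmul, Prod.snd_sub, Prod.smul_snd, Pi.sub_apply, Pi.smul_apply,
        smul_eq_mul, Pi.zero_apply]
      linarith [hc i j]
    obtain ⟨n, hn, hn0⟩ :=
      isOfFinAddOrder_iff_nsmul_eq_zero.mp (isOfFinAddOrder_of_snd_eq_zero e h2)
    refine hne ((n : ℤ) * u i) ((n : ℤ) * v i)
      (mul_ne_zero (by exact_mod_cast hn.ne') hi) ?_
    rw [mul_smul, mul_smul, ← sub_eq_zero, ← zsmul_sub, natCast_zsmul, hn0]
  refine ⟨(u i * v j - u j * v i).natAbs, fun p hp hlt a b hab R he => hab ?_⟩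
  have hpD : ¬ (p : ℤ) ∣ u i * v j - u j * v i := fun hd => by
    have := Nat.le_of_dvd (Int.natAbs_pos.mpr hD) (Int.natCast_dvd.mp hd)
    omega
  have hpp : Prime (p : ℤ) := Nat.prime_iff_prime_int.mp hp
  have he' : ∀ k, (p : ℤ) * (e R).2 k = a * u k + b * v k := fun k => by
    have := congrArg (fun z => (e z).2 k) he
    simpa [map_nsmul, map_add, map_zsmul, Prod.smul_snd, smul_eq_mul, nsmul_eq_mul] using this
  constructor
  · refine (hpp.dvd_mul.mp ⟨(e R).2 i * v j - (e R).2 j * v i, ?_⟩).resolve_right hpD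
    linear_combination (v i) * he' j - (v j) * he' i
  · refine (hpp.dvd_mul.mp ⟨u i * (e R).2 j - u j * (e R).2 i, ?_⟩).resolve_right hpD
    linear_combination (u j) * he' i - (u i) * he' j

end FA.LinearDependence
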