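import Fermat.Agent.Bashmakov.Core
import Mathlib.Algebra.Field.ZMod
import Mathlib.Algebra.Module.ZMod
import Mathlib.LinearAlgebra.Dual.Lemmas

/-!
# Kummer theory modulo `p` for two points

If the `p`-torsion is `(ℤ/p)²` with every automorphism induced, `p` odd, and no nontrivial
combination of `p Q₁`, `p Q₂` modulo `p` is `p` times a fixed element, then every automorphism of
the torsion with every pair of translations of `Q₁` and `Q₂` is induced: the translation pairs form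
a subgroup stable under all automorphisms, so it is everything or killed by a combination, which is
then a single point contradicting the theorem of Bashmakov.
-/

set_option autoImplicit false

noncomputable section

namespace FA.LinearDependence

open FA.Bashmakov

variable {p : ℕ} [Fact p.Prime]

/-- A subgroup of pairs stable under all automorphisms is everything or killed by a combination. -/
theorem eq_top_or_combination (hp2 : p ≠ 2)
    (C : AddSubgroup ((Fin 2 → ZMod p) × (Fin 2 → ZMod p)))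
    (hC : ∀ u : (Fin 2 → ZMod p) ≃+ (Fin 2 → ZMod p), ∀ x ∈ C, (u x.1, u x.2) ∈ C) :
    C = ⊤ ∨ ∃ a b : ZMod p, (a ≠ 0 ∨ b ≠ 0) ∧ ∀ x ∈ C, a • x.1 + b • x.2 = 0 := by
  have h2 : (2 : ZMod p) ≠ 0 := fun h => hp2 ((Nat.prime_dvd_prime_iff_eq Fact.out
    Nat.prime_two).mp ((ZMod.natCast_eq_zero_iff 2 p).mp (by exact_mod_cast h)))
  let u0 : (Fin 2 → ZMod p) ≃+ (Fin 2 → ZMod p) :=
    { toFun := fun w => ![2 * w 0, w 1]
      invFun := fun w => ![2⁻¹ * w 0, w 1]
      left_inv := fun w => by funext j; fin_cases j <;> simp [h2]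
      right_inv := fun w => by funext j; fin_cases j <;> simp [h2]
      map_add' := fun a b => by funext j; fin_cases j <;> simp [mul_add] }
  let sw : (Fin 2 → ZMod p) ≃+ (Fin 2 → ZMod p) :=
    { toFun := fun w => ![w 1, w 0]
      invFun := fun w => ![w 1, w 0]
      left_inv := fun w => by funext j; fin_cases j <;> simp
      right_inv := fun w => by funext j; fin_cases j <;> simp
      map_add' := fun a b => by funext j; fin_cases j <;> simp }
  -- the pairs of first coordinates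
  let W₀ : AddSubgroup (ZMod p × ZMod p) :=
    { carrier := {z | (![z.1, 0], ![z.2, 0]) ∈ C}
      zero_mem' := by
        show (![(0 : ZMod p), 0], ![(0 : ZMod p), 0]) ∈ C
        convert C.zero_mem using 1
        exact Prod.ext (by funext j; fin_cases j <;> rfl) (by funext j; fin_cases j <;> rfl)
      add_mem' := fun {z w} hz hw => by
        show (![z.1 + w.1, 0], ![z.2 + w.2, 0]) ∈ C
        convert C.add_mem hz hw using 1
        exact Prod.ext (by funext j; fin_cases j <;> simp) (by funext j; fin_cases j <;> simp)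
      neg_mem' := fun {z} hz => by
        show (![-z.1, 0], ![-z.2, 0]) ∈ C
        convert C.neg_mem hz using 1
        exact Prod.ext (by funext j; fin_cases j <;> simp) (by funext j; fin_cases j <;> simp) }
  have hcoord : ∀ x ∈ C, ∀ i, ((x.1 i, x.2 i) : ZMod p × ZMod p) ∈ W₀ := by
    have h0 : ∀ x ∈ C, ((x.1 0, x.2 0) : ZMod p × ZMod p) ∈ W₀ := fun x hx => by
      show (![x.1 0, 0], ![x.2 0, 0]) ∈ C
      have e : (![x.1 0, 0], ![x.2 0, 0]) = (u0 x.1, u0 x.2) - x := Prod.ext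
        (by funext j; fin_cases j <;> simp [u0]; ring)
        (by funext j; fin_cases j <;> simp [u0]; ring)
      rw [e]
      exact C.sub_mem (hC u0 x hx) hx
    intro x hx i
    fin_cases i
    · exact h0 x hx
    · exact h0 _ (hC sw x hx)
  by_cases htop : AddSubgroup.toZModSubmodule p W₀ = ⊤
  · refine Or.inl (eq_top_iff.mpr fun x _ => ?_)
    have hall : ∀ z, z ∈ W₀ := fun z =>
      (AddSubgroup.mem_toZModSubmodule (n := p)).mp (htop ▸ Submodule.mem_top)
    have h0 : (![x.1 0, 0], ![x.2 0, 0]) ∈ C := hall (x.1 0, x.2 0)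
    have h1 : (![x.1 1, 0], ![x.2 1, 0]) ∈ C := hall (x.1 1, x.2 1)
    have e : x = (![x.1 0, 0], ![x.2 0, 0]) + (sw ![x.1 1, 0], sw ![x.2 1, 0]) := Prod.ext
      (by funext j; fin_cases j <;> simp [sw]) (by funext j; fin_cases j <;> simp [sw])
    rw [e]
    exact C.add_mem h0 (hC sw _ h1)
  · obtain ⟨f, hf0, hf⟩ :=
      Submodule.exists_dual_map_eq_bot_of_lt_top (lt_top_iff_ne_top.mpr htop) inferInstance
    refine Or.inr ⟨f (1, 0), f (0, 1), ?_, fun x hx => funext fun i => ?_⟩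
    · by_contra h
      push Not at h
      refine hf0 (LinearMap.ext fun z => ?_)
      rw [show z = z.1 • ((1, 0) : ZMod p × ZMod p) + z.2 • ((0, 1) : ZMod p × ZMod p) by simp,
        map_add, map_smul, map_smul, h.1, h.2]
      simp
    · have hker : f (x.1 i, x.2 i) = 0 :=
        Submodule.eq_bot_iff _ |>.mp hf _ (Submodule.mem_map_of_mem
          ((AddSubgroup.mem_toZModSubmodule (n := p)).mpr (hcoord x hx i)))
      rw [show ((x.1 i, x.2 i) : ZMod p × ZMod p) = x.1 i • ((1, 0) : ZMod p × ZMod p) +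
        x.2 i • ((0, 1) : ZMod p × ZMod p) by simp, map_add, map_smul, map_smul] at hker
      simp only [Pi.add_apply, Pi.smul_apply, smul_eq_mul, Pi.zero_apply] at hker ⊢
      linear_combination hker

variable {G A : Type*} [Group G] [AddCommGroup A] (act : G →* AddMonoid.End A)

/-- **Every automorphism of the torsion with every pair of translations is induced.** -/
theorem exists_act_pair (hp2 : p ≠ 2)
    (c : (Fin 2 → ZMod (p ^ 1)) ≃+ Submodule.torsionBy ℤ A ((p : ℤ) ^ 1))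
    (hfull : ∀ φ : Submodule.torsionBy ℤ A ((p : ℤ) ^ 1) ≃+ Submodule.torsionBy ℤ A ((p : ℤ) ^ 1),
      ∃ σ, ∀ x, act σ x.1 = (φ x).1)
    {Q₁ Q₂ : A} (h₁ : ∀ σ, act σ (p • Q₁) = p • Q₁) (h₂ : ∀ σ, act σ (p • Q₂) = p • Q₂)
    (hind : ∀ a b : ℤ, ¬ ((p : ℤ) ∣ a ∧ (p : ℤ) ∣ b) → ∀ R : A, (∀ σ, act σ R = R) →
      p • R ≠ a • p • Q₁ + b • p • Q₂)
    (φ : Submodule.torsionBy ℤ A ((p : ℤ) ^ 1) ≃+ Submodule.torsionBy ℤ A ((p : ℤ) ^ 1))
    (t₁ t₂ : Submodule.torsionBy ℤ A ((p : ℤ) ^ 1)) :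
    ∃ σ, (∀ x, act σ x.1 = (φ x).1) ∧ act σ Q₁ = Q₁ + t₁.1 ∧ act σ Q₂ = Q₂ + t₂.1 := by
  have hp : p.Prime := Fact.out
  let r : (Fin 2 → ZMod p) ≃+ (Fin 2 → ZMod (p ^ 1)) :=
    AddEquiv.piCongrRight fun _ => (ZMod.ringEquivCongr (pow_one p).symm).toAddEquiv
  set d := r.trans c with hd_def
  have hmem : ∀ {y : A}, y ∈ pTors A p 1 ↔ p • y = 0 := fun {y} => by
    rw [Submodule.mem_torsionBy_iff, pow_one, natCast_zsmul]
  have hmul : ∀ (σ τ : G) (y : A), act (σ * τ) y = act σ (act τ y) := fun σ τ y => by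
    rw [map_mul]; rfl
  have hinv : ∀ (σ : G) (y : A), act σ (act σ⁻¹ y) = y := fun σ y => by
    rw [← hmul, mul_inv_cancel, map_one]; rfl
  have hstab : ∀ (σ : G) {y : A}, y ∈ pTors A p 1 → act σ y ∈ pTors A p 1 := fun σ y hy => by
    rw [hmem] at hy ⊢
    rw [← map_nsmul, hy, map_zero]
  have hd₁ : ∀ σ, act σ Q₁ - Q₁ ∈ pTors A p 1 := fun σ => by
    rw [hmem, nsmul_sub, ← map_nsmul, h₁, sub_self]
  have hd₂ : ∀ σ, act σ Q₂ - Q₂ ∈ pTors A p 1 := fun σ => by
    rw [hmem, nsmul_sub, ← map_nsmul, h₂, sub_self]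
  let C : AddSubgroup ((Fin 2 → ZMod p) × (Fin 2 → ZMod p)) :=
    { carrier := {v | ∃ g, (∀ x : pTors A p 1, act g x.1 = x.1) ∧
        act g Q₁ = Q₁ + (d v.1).1 ∧ act g Q₂ = Q₂ + (d v.2).1}
      zero_mem' := ⟨1, fun x => by rw [map_one]; rfl,
        by rw [map_one, Prod.fst_zero, map_zero, ZeroMemClass.coe_zero, add_zero]; rfl,
        by rw [map_one, Prod.snd_zero, map_zero, ZeroMemClass.coe_zero, add_zero]; rfl⟩
      add_mem' := fun {v w} ⟨g, hg, hg₁, hg₂⟩ ⟨h, hh, hh₁, hh₂⟩ =>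
        ⟨g * h, fun x => by rw [hmul, hh x, hg x],
          by rw [hmul, hh₁, map_add, hg₁, hg (d w.1), Prod.fst_add, map_add d, Submodule.coe_add,
            add_assoc],
          by rw [hmul, hh₂, map_add, hg₂, hg (d w.2), Prod.snd_add, map_add d, Submodule.coe_add,
            add_assoc]⟩
      neg_mem' := fun {v} ⟨g, hg, hg₁, hg₂⟩ => by
        have hg' : ∀ x : pTors A p 1, act g⁻¹ x.1 = x.1 := fun x => by
          conv_lhs => rw [← hg x]
          rw [← hmul, inv_mul_cancel, map_one]; rfl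
        refine ⟨g⁻¹, hg', ?_, ?_⟩
        · have e := congrArg (act g⁻¹) hg₁
          rw [← hmul, inv_mul_cancel, map_one, map_add, hg' (d v.1)] at e
          rw [Prod.fst_neg, map_neg, Submodule.coe_neg, ← sub_eq_add_neg, eq_sub_iff_add_eq]
          exact e.symm
        · have e := congrArg (act g⁻¹) hg₂
          rw [← hmul, inv_mul_cancel, map_one, map_add, hg' (d v.2)] at e
          rw [Prod.snd_neg, map_neg, Submodule.coe_neg, ← sub_eq_add_neg, eq_sub_iff_add_eq]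
          exact e.symm }
  have hC : ∀ u : (Fin 2 → ZMod p) ≃+ (Fin 2 → ZMod p), ∀ x ∈ C, (u x.1, u x.2) ∈ C := by
    rintro u x ⟨g, hg, hg₁, hg₂⟩
    obtain ⟨σ, hσ⟩ := hfull ((d.symm.trans u).trans d)
    refine ⟨σ * g * σ⁻¹, fun y => ?_, ?_, ?_⟩
    · rw [hmul, hmul, hg ⟨act σ⁻¹ y.1, hstab σ⁻¹ y.2⟩, hinv]
    · rw [hmul, hmul,
        show act σ⁻¹ Q₁ = Q₁ + (act σ⁻¹ Q₁ - Q₁) by rw [add_sub_cancel], map_add, hg₁,
        hg ⟨_, hd₁ σ⁻¹⟩, add_right_comm, add_sub_cancel, map_add, hinv, hσ (d x.1)]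
      simp
    · rw [hmul, hmul,
        show act σ⁻¹ Q₂ = Q₂ + (act σ⁻¹ Q₂ - Q₂) by rw [add_sub_cancel], map_add, hg₂,
        hg ⟨_, hd₂ σ⁻¹⟩, add_right_comm, add_sub_cancel, map_add, hinv, hσ (d x.2)]
      simp
  rcases eq_top_or_combination hp2 C hC with htop | ⟨a, b, hab, hkill⟩
  · obtain ⟨σ, hσ⟩ := hfull φ
    have hw₁ : act σ⁻¹ (t₁.1 - (act σ Q₁ - Q₁)) ∈ pTors A p 1 := hstab _ (sub_mem t₁.2 (hd₁ σ))
    have hw₂ : act σ⁻¹ (t₂.1 - (act σ Q₂ - Q₂)) ∈ pTors A p 1 := hstab _ (sub_mem t₂.2 (hd₂ σ))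
    obtain ⟨g, hg, hg₁, hg₂⟩ : (d.symm ⟨_, hw₁⟩, d.symm ⟨_, hw₂⟩) ∈ C :=
      htop ▸ AddSubgroup.mem_top _
    refine ⟨σ * g, fun x => by rw [hmul, hg x, hσ], ?_, ?_⟩
    · rw [hmul, hg₁, map_add, AddEquiv.apply_symm_apply, hinv]; abel
    · rw [hmul, hg₂, map_add, AddEquiv.apply_symm_apply, hinv]; abel
  -- the combination is one point contradicting Bashmakov
  exfalso
  have hlift : ¬ ((p : ℤ) ∣ (a.val : ℤ) ∧ (p : ℤ) ∣ (b.val : ℤ)) := fun ⟨ha, hb⟩ => by
    rw [← ZMod.intCast_zmod_eq_zero_iff_dvd, Int.cast_natCast, ZMod.natCast_zmod_val] at ha hb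
    exact hab.elim (fun h => h ha) (fun h => h hb)
  set Q := (a.val : ℤ) • Q₁ + (b.val : ℤ) • Q₂ with hQdef
  have hQp : p ^ 1 • Q = (a.val : ℤ) • p • Q₁ + (b.val : ℤ) • p • Q₂ := by
    rw [pow_one, hQdef, nsmul_add, smul_comm p (a.val : ℤ), smul_comm p (b.val : ℤ)]
  obtain ⟨σ, hσ, hσQ⟩ := exists_act_eq act (n := 1) hp hp2 c hfull (Q := Q) (fun σ => by
      rw [hQp, map_add, map_zsmul, map_zsmul, h₁, h₂])
    (fun R hR he => hind _ _ hlift R hR (he.trans hQp))
    (AddEquiv.refl _) (d ![1, 0])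
  have hσ' : ∀ x : pTors A p 1, act σ x.1 = x.1 := fun x => by simpa using hσ x
  have hk := hkill (d.symm ⟨_, hd₁ σ⟩, d.symm ⟨_, hd₂ σ⟩) ⟨σ, hσ', by
    rw [AddEquiv.apply_symm_apply, add_sub_cancel], by
    rw [AddEquiv.apply_symm_apply, add_sub_cancel]⟩
  have hs : ∀ (z : ZMod p) (v : Fin 2 → ZMod p), z • v = (z.val : ℤ) • v := fun z v => by
    rw [natCast_zsmul, ← Nat.cast_smul_eq_nsmul (ZMod p), ZMod.natCast_zmod_val]
  simp only [hs] at hk
  rw [← map_zsmul, ← map_zsmul, ← map_add, map_eq_zero_iff _ d.symm.injective] at hk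
  have e : (a.val : ℤ) • (act σ Q₁ - Q₁) + (b.val : ℤ) • (act σ Q₂ - Q₂) = 0 :=
    congrArg Subtype.val hk
  have e' : act σ Q - Q = 0 := by
    rw [hQdef, map_add, map_zsmul, map_zsmul, ← e, zsmul_sub, zsmul_sub]; abel
  rw [hσQ, add_sub_cancel_left] at e'
  have := congrFun (d.injective ((Subtype.ext e').trans (map_zero d).symm)) 0
  exact one_ne_zero this

end FA.LinearDependence

end
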