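import Fermat.Agent.LinearDependence.Core
import Mathlib.GroupTheory.FiniteAbelian.Basic
import Mathlib.LinearAlgebra.LinearIndependent.Basic

/-!
# Kummer theory modulo `p` for a family of points

The translation tuples form a subgroup stable under all automorphisms of the torsion, so it is
everything or killed by a combination, which is then a single point contradicting Bashmakov. In a
finitely generated group an independent family stays independent modulo all large primes.
-/

set_option autoImplicit false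
set_option linter.style.haveILetI false

noncomputable section

namespace FA.LinearDependence

open FA.Bashmakov

variable {p : ℕ} [Fact p.Prime] {ι : Type*} [Fintype ι]

/-- A subgroup of tuples stable under all automorphisms is everything or killed by a combination. -/
theorem eq_top_or_combination_family (hp2 : p ≠ 2) (C : AddSubgroup (ι → Fin 2 → ZMod p))
    (hC : ∀ u : (Fin 2 → ZMod p) ≃+ (Fin 2 → ZMod p), ∀ x ∈ C, (fun i => u (x i)) ∈ C) :
    C = ⊤ ∨ ∃ a : ι → ZMod p, a ≠ 0 ∧ ∀ x ∈ C, ∑ i, a i • x i = 0 := by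
  classical
  have h2 : (2 : ZMod p) ≠ 0 := fun h => hp2 ((Nat.prime_dvd_prime_iff_eq Fact.out
    Nat.prime_two).mp ((ZMod.natCast_eq_zero_iff 2 p).mp (by exact_mod_cast h)))
  let u0 : (Fin 2 → ZMod p) ≃+ (Fin 2 → ZMod p) :=
    { toFun := fun w => ![2 * w 0, w 1]
      invFun := fun w => ![2⁻¹ * w 0, w 1]
      left_inv := fun w => by funext j; fin_cases j <;> simp [h2]
      right_inv := fun w => by funext j; fin_cases j <;> simp [h2]
      map_add' := fun a b => by funext j; fin_cases j <;> simp [mul_add] }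
  let sw : (Fin 2 → ZMod p) ≃+ (Fin 2 → ZMod p) :=
    { toFun := fun w => ![w 1, w 0]
      invFun := fun w => ![w 1, w 0]
      left_inv := fun w => by funext j; fin_cases j <;> simp
      right_inv := fun w => by funext j; fin_cases j <;> simp
      map_add' := fun a b => by funext j; fin_cases j <;> simp }
  -- the tuples of first coordinates
  let W₀ : AddSubgroup (ι → ZMod p) :=
    { carrier := {z | (fun i => ![z i, 0]) ∈ C}
      zero_mem' := by
        show (fun _ : ι => ![(0 : ZMod p), 0]) ∈ C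
        convert C.zero_mem using 1
        funext i j; fin_cases j <;> rfl
      add_mem' := fun {z w} hz hw => by
        show (fun i => ![(z + w) i, 0]) ∈ C
        convert C.add_mem hz hw using 1
        funext i j; fin_cases j <;> simp
      neg_mem' := fun {z} hz => by
        show (fun i => ![(-z) i, 0]) ∈ C
        convert C.neg_mem hz using 1
        funext i j; fin_cases j <;> simp }
  have hcoord : ∀ x ∈ C, ∀ k, (fun i => x i k) ∈ W₀ := by
    have h0 : ∀ x ∈ C, (fun i => x i 0) ∈ W₀ := fun x hx => by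
      show (fun i => ![x i 0, 0]) ∈ C
      have e : (fun i => ![x i 0, 0]) = (fun i => u0 (x i)) - x := by
        funext i j; fin_cases j <;> simp [u0]; ring
      rw [e]
      exact C.sub_mem (hC u0 x hx) hx
    intro x hx k
    fin_cases k
    · exact h0 x hx
    · exact h0 _ (hC sw x hx)
  by_cases htop : AddSubgroup.toZModSubmodule p W₀ = ⊤
  · refine Or.inl (eq_top_iff.mpr fun x _ => ?_)
    have hall : ∀ z, z ∈ W₀ := fun z =>
      (AddSubgroup.mem_toZModSubmodule (n := p)).mp (htop ▸ Submodule.mem_top)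
    have h0 : (fun i => ![x i 0, 0]) ∈ C := hall fun i => x i 0
    have h1 : (fun i => ![x i 1, 0]) ∈ C := hall fun i => x i 1
    have e : x = (fun i => ![x i 0, 0]) + fun i => sw ![x i 1, 0] := by
      funext i j; fin_cases j <;> simp [sw]
    rw [e]
    exact C.add_mem h0 (hC sw _ h1)
  · obtain ⟨f, hf0, hf⟩ :=
      Submodule.exists_dual_map_eq_bot_of_lt_top (lt_top_iff_ne_top.mpr htop) inferInstance
    have hsum : ∀ z : ι → ZMod p, f z = ∑ i, z i * f (Pi.single i 1) := fun z => by
      conv_lhs => rw [pi_eq_sum_univ' z]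
      rw [map_sum]
      exact Finset.sum_congr rfl fun i _ => by rw [map_smul, smul_eq_mul]
    refine Or.inr ⟨fun i => f (Pi.single i 1), fun h => hf0 (LinearMap.ext fun z => ?_),
      fun x hx => funext fun k => ?_⟩
    · rw [hsum]; simp [funext_iff] at h; simp [h]
    · have hker : f (fun i => x i k) = 0 :=
        Submodule.eq_bot_iff _ |>.mp hf _ (Submodule.mem_map_of_mem
          ((AddSubgroup.mem_toZModSubmodule (n := p)).mpr (hcoord x hx k)))
      rw [hsum] at hker
      simp only [Finset.sum_apply, Pi.smul_apply, smul_eq_mul, Pi.zero_apply]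
      exact (Finset.sum_congr rfl fun i _ => mul_comm _ _).trans hker

variable {G A : Type*} [Group G] [AddCommGroup A] (act : G →* AddMonoid.End A)

/-- **Every automorphism of the torsion with every family of translations is induced.** -/
theorem exists_act_family (hp2 : p ≠ 2)
    (c : (Fin 2 → ZMod (p ^ 1)) ≃+ Submodule.torsionBy ℤ A ((p : ℤ) ^ 1))
    (hfull : ∀ φ : Submodule.torsionBy ℤ A ((p : ℤ) ^ 1) ≃+ Submodule.torsionBy ℤ A ((p : ℤ) ^ 1),
      ∃ σ, ∀ x, act σ x.1 = (φ x).1)
    {Q : ι → A} (hQ : ∀ i σ, act σ (p • Q i) = p • Q i)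
    (hind : ∀ a : ι → ℤ, (∃ i, ¬ (p : ℤ) ∣ a i) → ∀ R : A, (∀ σ, act σ R = R) →
      p • R ≠ ∑ i, a i • p • Q i)
    (φ : Submodule.torsionBy ℤ A ((p : ℤ) ^ 1) ≃+ Submodule.torsionBy ℤ A ((p : ℤ) ^ 1))
    (t : ι → Submodule.torsionBy ℤ A ((p : ℤ) ^ 1)) :
    ∃ σ, (∀ x, act σ x.1 = (φ x).1) ∧ ∀ i, act σ (Q i) = Q i + (t i).1 := by
  have hp : p.Prime := Fact.out
  let r : (Fin 2 → ZMod p) ≃+ (Fin 2 → ZMod (p ^ 1)) :=
    AddEquiv.piCongrRight fun _ => (ZMod.ringEquivCongr (pow_one p).symm).toAddEquiv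
  set d := r.trans c with hd_def
  have hmem : ∀ {y : A}, y ∈ pTors A p 1 ↔ p • y = 0 := fun {y} => by
    rw [Submodule.mem_torsionBy_iff, pow_one, natCast_zsmul]
  have hmul : ∀ (σ τ : G) (y : A), act (σ * τ) y = act σ (act τ y) := fun σ τ y => by
    rw [map_mul]; rfl
  have hinv : ∀ (σ : G) (y : A), act σ (act σ⁻¹ y) = y := fun σ y => by
    rw [← hmul, mul_inv_cancel, map_one]; rfl
  have hstab : ∀ (σ : G) {y : A}, y ∈ pTors A p 1 → act σ y ∈ pTors A p 1 := fun σ y hy => by
    rw [hmem] at hy ⊢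
    rw [← map_nsmul, hy, map_zero]
  have hd : ∀ i σ, act σ (Q i) - Q i ∈ pTors A p 1 := fun i σ => by
    rw [hmem, nsmul_sub, ← map_nsmul, hQ, sub_self]
  let C : AddSubgroup (ι → Fin 2 → ZMod p) :=
    { carrier := {v | ∃ g, (∀ x : pTors A p 1, act g x.1 = x.1) ∧
        ∀ i, act g (Q i) = Q i + (d (v i)).1}
      zero_mem' := ⟨1, fun x => by rw [map_one]; rfl, fun i => by
        rw [map_one, Pi.zero_apply, map_zero, ZeroMemClass.coe_zero, add_zero]; rfl⟩
      add_mem' := fun {v w} ⟨g, hg, hgQ⟩ ⟨h, hh, hhQ⟩ =>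
        ⟨g * h, fun x => by rw [hmul, hh x, hg x], fun i => by
          rw [hmul, hhQ, map_add, hgQ, hg (d (w i)), Pi.add_apply, map_add d, Submodule.coe_add,
            add_assoc]⟩
      neg_mem' := fun {v} ⟨g, hg, hgQ⟩ => by
        have hg' : ∀ x : pTors A p 1, act g⁻¹ x.1 = x.1 := fun x => by
          conv_lhs => rw [← hg x]
          rw [← hmul, inv_mul_cancel, map_one]; rfl
        refine ⟨g⁻¹, hg', fun i => ?_⟩
        have e := congrArg (act g⁻¹) (hgQ i)
        rw [← hmul, inv_mul_cancel, map_one, map_add, hg' (d (v i))] at e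
        rw [Pi.neg_apply, map_neg, Submodule.coe_neg, ← sub_eq_add_neg, eq_sub_iff_add_eq]
        exact e.symm }
  have hC : ∀ u : (Fin 2 → ZMod p) ≃+ (Fin 2 → ZMod p), ∀ x ∈ C, (fun i => u (x i)) ∈ C := by
    rintro u x ⟨g, hg, hgQ⟩
    obtain ⟨σ, hσ⟩ := hfull ((d.symm.trans u).trans d)
    refine ⟨σ * g * σ⁻¹, fun y => ?_, fun i => ?_⟩
    · rw [hmul, hmul, hg ⟨act σ⁻¹ y.1, hstab σ⁻¹ y.2⟩, hinv]
    · rw [hmul, hmul,
        show act σ⁻¹ (Q i) = Q i + (act σ⁻¹ (Q i) - Q i) by rw [add_sub_cancel], map_add, hgQ,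
        hg ⟨_, hd i σ⁻¹⟩, add_right_comm, add_sub_cancel, map_add, hinv, hσ (d (x i))]
      simp
  rcases eq_top_or_combination_family hp2 C hC with htop | ⟨a, ha, hkill⟩
  · obtain ⟨σ, hσ⟩ := hfull φ
    have hw : ∀ i, act σ⁻¹ ((t i).1 - (act σ (Q i) - Q i)) ∈ pTors A p 1 :=
      fun i => hstab _ (sub_mem (t i).2 (hd i σ))
    obtain ⟨g, hg, hgQ⟩ : (fun i => d.symm ⟨_, hw i⟩) ∈ C := htop ▸ AddSubgroup.mem_top _
    refine ⟨σ * g, fun x => by rw [hmul, hg x, hσ], fun i => ?_⟩
    rw [hmul, hgQ, map_add, AddEquiv.apply_symm_apply, hinv]; abel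
  -- the combination is one point contradicting Bashmakov
  exfalso
  have hlift : ∃ i, ¬ (p : ℤ) ∣ ((a i).val : ℤ) := by
    obtain ⟨i, hi⟩ := Function.ne_iff.mp ha
    exact ⟨i, fun h => hi (by
      rw [← ZMod.intCast_zmod_eq_zero_iff_dvd, Int.cast_natCast, ZMod.natCast_zmod_val] at h
      exact h)⟩
  set R₀ := ∑ i, ((a i).val : ℤ) • Q i with hR₀
  have hRp : p ^ 1 • R₀ = ∑ i, ((a i).val : ℤ) • p • Q i := by
    rw [pow_one, hR₀, Finset.smul_sum]
    exact Finset.sum_congr rfl fun i _ => smul_comm _ _ _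
  obtain ⟨σ, hσ, hσR⟩ := exists_act_eq act (n := 1) hp hp2 c hfull (Q := R₀) (fun σ => by
      rw [hRp, map_sum]
      exact Finset.sum_congr rfl fun i _ => by rw [map_zsmul, hQ])
    (fun R hR he => hind _ hlift R hR (he.trans hRp)) (AddEquiv.refl _) (d ![1, 0])
  have hσ' : ∀ x : pTors A p 1, act σ x.1 = x.1 := fun x => by simpa using hσ x
  have hk := hkill (fun i => d.symm ⟨_, hd i σ⟩) ⟨σ, hσ', fun i => by
    rw [AddEquiv.apply_symm_apply, add_sub_cancel]⟩
  have hs : ∀ (z : ZMod p) (v : Fin 2 → ZMod p), z • v = (z.val : ℤ) • v := fun z v => by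
    rw [natCast_zsmul, ← Nat.cast_smul_eq_nsmul (ZMod p), ZMod.natCast_zmod_val]
  simp only [hs, ← map_zsmul, ← map_sum] at hk
  rw [map_eq_zero_iff _ d.symm.injective] at hk
  have e := congrArg Subtype.val hk
  simp only [Submodule.coe_sum, SetLike.val_smul, ZeroMemClass.coe_zero] at e
  have e' : act σ R₀ - R₀ = 0 := by
    rw [hR₀, map_sum, ← Finset.sum_sub_distrib, ← e]
    exact Finset.sum_congr rfl fun i _ => by rw [map_zsmul, zsmul_sub]
  rw [hσR, add_sub_cancel_left] at e'
  have := congrFun (d.injective ((Subtype.ext e').trans (map_zero d).symm)) 0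
  exact one_ne_zero this

omit [Fact p.Prime] in
/-- **An independent family stays independent modulo large primes.** -/
theorem exists_bound_independent_family {M : Type*} [AddCommGroup M] [AddGroup.FG M] {P : ι → M}
    (hP : LinearIndependent ℤ P) :
    ∃ B : ℕ, ∀ p : ℕ, p.Prime → B < p → ∀ a : ι → ℤ, (∃ i, ¬ (p : ℤ) ∣ a i) → ∀ R : M,
      p • R ≠ ∑ i, a i • P i := by
  classical
  haveI : Module.Finite ℤ M := Module.Finite.iff_addGroup_fg.mpr inferInstance
  set S := Submodule.span ℤ (Set.range P)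
  set T := Submodule.torsion ℤ (M ⧸ S)
  haveI : Finite T := Module.finite_of_fg_torsion T Submodule.torsion_isTorsion
  refine ⟨Nat.card T, fun p hp hlt a ⟨i, hi⟩ R hR => hi ?_⟩
  have hmemS : ∑ i, a i • P i ∈ S := Submodule.sum_mem _ fun j _ =>
    Submodule.smul_mem _ _ (Submodule.subset_span ⟨j, rfl⟩)
  have hT : (Submodule.Quotient.mk R : M ⧸ S) ∈ T := by
    refine ⟨⟨(p : ℤ), mem_nonZeroDivisors_of_ne_zero (by exact_mod_cast hp.ne_zero)⟩, ?_⟩
    show (p : ℤ) • (Submodule.Quotient.mk R : M ⧸ S) = 0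
    rwa [← Submodule.Quotient.mk_smul, Submodule.Quotient.mk_eq_zero, natCast_zsmul, hR]
  have hD : Nat.card T • R ∈ S := by
    rw [← Submodule.Quotient.mk_eq_zero, Submodule.Quotient.mk_smul]
    exact congrArg Subtype.val (card_nsmul_eq_zero' (x := (⟨_, hT⟩ : T)))
  obtain ⟨c, hc⟩ := (Submodule.mem_span_range_iff_exists_fun ℤ).mp hD
  have h0 : ∑ j, ((p : ℤ) * c j - (Nat.card T : ℤ) * a j) • P j = 0 := by
    simp only [sub_smul, mul_smul, Finset.sum_sub_distrib, ← Finset.smul_sum, hc, ← hR]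
    simp only [natCast_zsmul, smul_comm p, sub_self]
  have hi' := Fintype.linearIndependent_iff.mp hP _ h0 i
  refine ((Nat.prime_iff_prime_int.mp hp).dvd_mul.mp ⟨c i, (sub_eq_zero.mp hi').symm⟩).resolve_left
    fun hd => ?_
  have := Nat.le_of_dvd Nat.card_pos (Int.natCast_dvd_natCast.mp hd)
  omega

/-- **A maximal independent subfamily**: each member has a nonzero multiple in its span. -/
theorem exists_indep_subfamily {M : Type*} [AddCommGroup M] (P : ι → M) :
    ∃ s : Finset ι, LinearIndependent ℤ (fun j : s => P j) ∧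
      ∀ i, ∃ (a : ℤ) (c : s → ℤ), a ≠ 0 ∧ a • P i = ∑ j, c j • P j := by
  classical
  obtain ⟨s, hs, hmax⟩ :=
    ((Finset.univ : Finset ι).powerset.filter
      fun s : Finset ι => LinearIndepOn ℤ P ↑s).exists_max_image Finset.card
        ⟨∅, by simp [linearIndepOn_empty]⟩
  simp only [Finset.mem_filter, Finset.mem_powerset, Finset.subset_univ, true_and] at hs hmax
  refine ⟨s, hs, fun i => ?_⟩
  by_cases hi : i ∈ s
  · exact ⟨1, Pi.single ⟨i, hi⟩ 1, one_ne_zero, by simp [Pi.single_apply]⟩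
  have hno : ¬ LinearIndepOn ℤ P ↑(insert i s) := fun h => by
    have := hmax _ h
    rw [Finset.card_insert_of_notMem hi] at this
    omega
  rw [linearIndepOn_finset_iff] at hs hno
  push Not at hno
  obtain ⟨f, hf, j, hj, hfj⟩ := hno
  rw [Finset.sum_insert hi] at hf
  refine ⟨f i, fun j => - f j, fun h0 => hfj ?_, ?_⟩
  · rw [h0, zero_zsmul, zero_add] at hf
    rcases Finset.mem_insert.mp hj with rfl | hj'
    · exact h0
    · exact hs f hf j hj'
  · rw [Finset.sum_coe_sort s fun j => (-f j) • P j, eq_neg_of_add_eq_zero_left hf,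
      ← Finset.sum_neg_distrib]
    simp

end FA.LinearDependence

end
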