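import Fermat.Agent.LinearDependence.Main
import Fermat.Agent.LinearDependence.Family

/-!
# Primes where a family is divisible and one more point is not

If `R` is independent modulo `p` of a subfamily spanning the family up to multipliers prime to `p`,
some element of Galois fixes a `p`-th part of each member and none of `R`, so by Chebotarev
infinitely many primes `q` make every member `p` times a point modulo `q` and `R` not.
-/

set_option autoImplicit false
set_option linter.style.haveILetI false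

noncomputable section

open WeierstrassCurve NumberField IsDedekindDomain FA.Frob FA.PointDiv
open scoped WeierstrassCurve.Affine Classical

local notation "Qb" => AlgebraicClosure ℚ
local notation "GQ" => AlgebraicClosure ℚ ≃ₐ[ℚ] AlgebraicClosure ℚ

namespace FA.LinearDependence

variable {W : WeierstrassCurve ℤ} [(ratCurve W).IsElliptic] {p : ℕ} [hp : Fact p.Prime]
variable {κ : Type} [Fintype κ]

omit [Fintype κ] hp in
/-- An element fixing `E[p]`, translating a `p`-th part of `R` and none of those of the family, fixes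
a point of every fibre of the family and none of that of `R`. -/
theorem fixed_family_of_act {P : κ → (ratCurve W).toAffine.Point}
    {R : (ratCurve W).toAffine.Point} {Q : Option κ → ((ratCurve W).toAffine⁄Qb).Point}
    (hQ : ∀ i, p • Q i = up W (i.elim R P))
    {t : Submodule.torsionBy ℤ ((ratCurve W).toAffine⁄Qb).Point ((p : ℤ) ^ 1)} (ht : t.1 ≠ 0)
    {σ : GQ} (hσ : ∀ T : Submodule.torsionBy ℤ ((ratCurve W).toAffine⁄Qb).Point ((p : ℤ) ^ 1),
      σ • T.1 = T.1)
    (hσQ : ∀ i, σ • Q i = Q i + ((i.elim t fun _ => 0 :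
      Submodule.torsionBy ℤ ((ratCurve W).toAffine⁄Qb).Point ((p : ℤ) ^ 1))).1) :
    ∃ σ : GQ, (∀ X, fibHom W p R σ X ≠ X) ∧ ∀ j, ∃ X, fibHom W p (P j) σ X = X := by
  refine ⟨σ, fun X hX => ht ?_, fun j => ⟨⟨Q (some j), hQ (some j)⟩, Subtype.ext ?_⟩⟩
  · have hX' : σ • X.1 = X.1 := congrArg Subtype.val hX
    have hd : σ • (X.1 - Q none) = X.1 - Q none := hσ ⟨X.1 - Q none, by
      rw [pow_one, Submodule.mem_torsionBy_iff, natCast_zsmul, nsmul_sub, X.2, hQ none]
      exact sub_self (up W R)⟩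
    rw [FA.Local.gal_smul_sub (ratCurve W) σ, hX',
      show σ • Q none = Q none + t.1 from (hσQ none), sub_right_inj, add_eq_left] at hd
    exact hd
  · show σ • Q (some j) = Q (some j)
    exact (hσQ (some j)).trans (add_zero _)

/-- Some element of Galois fixes a point of every fibre of the family and none of that of `R`. -/
theorem exists_fixed_family (hp2 : p ≠ 2)
    (hfull : ∀ φ : Submodule.torsionBy ℤ ((ratCurve W).toAffine⁄Qb).Point (p : ℤ) ≃+
        Submodule.torsionBy ℤ ((ratCurve W).toAffine⁄Qb).Point (p : ℤ),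
      ∃ σ : GQ, ∀ T, Affine.Point.map σ.toAlgHom T.1 = (φ T).1)
    {P : κ → (ratCurve W).toAffine.Point} {R : (ratCurve W).toAffine.Point}
    (hind : ∀ c : Option κ → ℤ, (∃ i, ¬ (p : ℤ) ∣ c i) → ∀ S,
      p • S ≠ c none • R + ∑ j, c (some j) • P j) :
    ∃ σ : GQ, (∀ X, fibHom W p R σ X ≠ X) ∧ ∀ j, ∃ X, fibHom W p (P j) σ X = X := by
  set F : Option κ → (ratCurve W).toAffine.Point := fun i => i.elim R P with hF
  choose Q hQ using fun i => exists_div W hp.out.ne_zero (up W (F i))
  obtain ⟨c⟩ := FA.Bashmakov.exists_torsion_coord (ratCurve W) p 1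
  have hfix : ∀ (S : (ratCurve W).toAffine.Point) (σ : GQ),
      Affine.Point.map (W' := (ratCurve W).toAffine) σ.toAlgHom (up W S) = up W S := fun S σ => by
    rw [up_eq_map]; exact FA.Torsion.map_fixed (ratCurve W) σ S
  have hfull' := hfull
  rw [← pow_one (p : ℤ)] at hfull'
  obtain ⟨t, ht⟩ : ∃ t : Submodule.torsionBy ℤ ((ratCurve W).toAffine⁄Qb).Point ((p : ℤ) ^ 1),
      t.1 ≠ 0 := ⟨c ![1, 0], fun h => by
    haveI : Fact (1 < p ^ 1) := ⟨by rw [pow_one]; exact hp.out.one_lt⟩
    exact one_ne_zero (congrFun (c.injective ((Subtype.ext h).trans (map_zero c).symm)) 0)⟩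
  obtain ⟨σ, hσ, hσQ⟩ := exists_act_family (FA.Bashmakov.pointAct (ratCurve W)) hp2 c hfull'
    (Q := Q) (fun i σ => by rw [hQ i]; exact hfix (F i) σ)
    (fun a hab S hS he => by
      obtain ⟨S₀, hS₀⟩ := FA.Thirteen.exists_rat_point (E := ratCurve W) S hS
      have hsum : p • S₀ = ∑ i, a i • F i := mapHom_injective (algebraMap ℚ Qb) rfl (by
        show up W (p • S₀) = up W (∑ i, a i • F i)
        have hup : up W S₀ = S := (up_eq_map S₀).trans hS₀
        refine (map_nsmul (up W) p S₀).trans ((congrArg (p • ·) hup).trans (he.trans ?_))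
        refine Eq.trans ?_ (map_sum (up W) _ _).symm
        exact Finset.sum_congr rfl fun i _ => by rw [hQ i]; exact (map_zsmul (up W) _ _).symm)
      refine hind a hab S₀ (hsum.trans ?_)
      rw [Fintype.sum_option]
      simp [hF])
    (AddEquiv.refl _) (fun i => i.elim t fun _ => 0)
  exact fixed_family_of_act hQ ht (fun T => hσ T) hσQ

/-- An element fixing a `p`-th part of each term of a relation fixes one of the point it determines
up to a multiplier prime to `p`. -/
theorem exists_fixed_of_relation {σ : GQ} {P : κ → (ratCurve W).toAffine.Point}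
    {S : (ratCurve W).toAffine.Point} {a : ℤ} (ha : ¬ (p : ℤ) ∣ a) {c : κ → ℤ}
    (hrel : a • S = ∑ j, c j • P j) (hfix : ∀ j, ∃ X, fibHom W p (P j) σ X = X) :
    ∃ X, fibHom W p S σ X = X := by
  choose X hX using hfix
  obtain ⟨u, v, huv⟩ := Int.isCoprime_iff_gcd_eq_one.mpr
    (Int.gcd_eq_natAbs.trans (hp.out.coprime_iff_not_dvd.mpr fun h => ha
      (Int.natCast_dvd.mpr h)) : Int.gcd (p : ℤ) a = 1)
  let act := FA.Bashmakov.pointAct (ratCurve W) σ
  set Y := v • ∑ j, c j • (X j).1 + u • up W S with hY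
  have hsum : p • ∑ j, c j • (X j).1 = a • up W S := by
    refine Eq.trans ?_ (map_zsmul (up W) a S)
    rw [hrel]
    refine Eq.trans ?_ (map_sum (up W) _ _).symm
    rw [Finset.smul_sum]
    refine Finset.sum_congr rfl fun j _ => ?_
    rw [smul_comm, (X j).2]
    exact (map_zsmul (up W) _ _).symm
  refine ⟨⟨Y, ?_⟩, Subtype.ext ?_⟩
  · rw [hY, nsmul_add, smul_comm p v, hsum, smul_comm p u, ← natCast_zsmul (up W S) p,
      ← mul_smul, ← mul_smul, ← add_zsmul, add_comm, huv, one_zsmul]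
  · show act Y = Y
    have hf : ∀ j, act (X j).1 = (X j).1 := fun j => congrArg Subtype.val (hX j)
    have hS : act (up W S) = up W S := smul_up W σ S
    simp only [hY, map_add, map_zsmul, map_sum, hf, hS]

variable {ι : Type*} [Finite ι]

/-- **A point stays outside modulo infinitely many primes where a family is divisible**,
given one element of Galois as in `exists_fixed_family`. -/
theorem infinite_locDiv_family_of_fixed
    {x y : ι → ℚ} (h : ∀ i, (ratCurve W).toAffine.Nonsingular (x i) (y i)) {x' y' : ℚ}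
    (h' : (ratCurve W).toAffine.Nonsingular x' y') (e : κ → ι)
    (hrel : ∀ i, ∃ (a : ℤ) (c : κ → ℤ), ¬ (p : ℤ) ∣ a ∧
      a • Affine.Point.some (x i) (y i) (h i) =
        ∑ j, c j • Affine.Point.some (x (e j)) (y (e j)) (h (e j)))
    (hfam : ∃ σ : GQ, (∀ X, fibHom W p (.some x' y' h') σ X ≠ X) ∧
      ∀ j, ∃ X, fibHom W p (Affine.Point.some (x (e j)) (y (e j)) (h (e j))) σ X = X) :
    {q : ℕ | q.Prime ∧ (∃ _ : Fact q.Prime,
      (W.map (Int.castRingHom (ZMod q))).toAffine.Nonsingular (x' : ZMod q) y') ∧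
      ¬ LocDiv W p q x' y' ∧ ∀ i, LocDiv W p q (x i) (y i)}.Infinite := by
  let _ : Fintype ι := Fintype.ofFinite ι
  set P := fun i => Affine.Point.some (x i) (y i) (h i) with hP
  set f₁ := fibHom W p (.some x' y' h') with hf₁
  have hfin := fun j => finite_fib W hp.out.ne_zero (P (e j))
  have := finite_fib W hp.out.ne_zero (.some x' y' h')
  set f := f₁.prod (MonoidHom.pi fun j => fibHom W p (P (e j))) with hf
  let _ : Fintype f.range := Fintype.ofFinite _
  set π := f.rangeRestrict with hπdef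
  let X : Set f.range := {g | (∀ Q, g.1.1 Q ≠ Q) ∧ ∀ j, ∃ Q, g.1.2 j Q = Q}
  have hX : ∀ g ∈ X, ∀ z, z * g * z⁻¹ ∈ X := fun g ⟨hne, hall⟩ z => by
    refine ⟨fun R e' => hne (z.1.1.symm R) (z.1.1.injective ?_), fun j => ?_⟩
    · rw [Equiv.apply_symm_apply]; exact e'
    · obtain ⟨Q, hQ⟩ := hall j
      refine ⟨z.1.2 j Q, ?_⟩
      show z.1.2 j (g.1.2 j ((z.1.2 j).symm (z.1.2 j Q))) = z.1.2 j Q
      rw [Equiv.symm_apply_apply, hQ]
  have hker : IsOpen (π.ker : Set GQ) := by
    rw [hπdef, MonoidHom.ker_rangeRestrict, hf, MonoidHom.ker_prod, Subgroup.coe_inf]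
    refine (isOpen_ker_fibHom W hp.out.ne_zero _).inter ?_
    have e1 : ((MonoidHom.pi fun j => fibHom W p (P (e j))).ker : Set GQ) =
        ⋂ j, ((fibHom W p (P (e j))).ker : Set GQ) := by
      ext σ; simp [funext_iff]
    rw [e1]
    exact isOpen_iInter_of_finite fun j => isOpen_ker_fibHom W hp.out.ne_zero _
  have hd := FA.Chebotarev.hasDirichletDensity_frobSet π (MonoidHom.rangeRestrict_surjective _)
    hker hX
  have hpos : (Nat.card X : ℝ) / Fintype.card f.range ≠ 0 := by
    obtain ⟨σ, hσ₁, hσ₂⟩ := hfam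
    have : Nonempty X := ⟨⟨π σ, hσ₁, hσ₂⟩⟩
    exact div_ne_zero (Nat.cast_ne_zero.mpr Nat.card_pos.ne')
      (Nat.cast_ne_zero.mpr Fintype.card_ne_zero)
  set N : ℕ := W.Δ.natAbs * p * x'.den * y'.den * ∏ i, (x i).den * (y i).den with hN
  have hN0 : N ≠ 0 := by
    have hΔ : W.Δ.natAbs ≠ 0 := fun e => (ratCurve W).isUnit_Δ.ne_zero (by
      simp [ratCurve, Int.natAbs_eq_zero.mp e])
    simp [hN, hΔ, hp.out.ne_zero, Finset.prod_ne_zero_iff]
  have hT : (FA.Chebotarev.frobSet π X \ {v | Ideal.absNorm v.asIdeal ∣ N}).HasDirichletDensity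
      ((Nat.card X : ℝ) / Fintype.card f.range) :=
    FA.TraceDist.hasDirichletDensity_congr hd (finite_absNorm_dvd hN0)
      fun v hv => ⟨fun h => ⟨h, hv⟩, fun h => h.1⟩
  have hinf := FA.Chebotarev.infinite_of_hasDirichletDensity hT hpos
  have hIm : ((fun v : HeightOneSpectrum (𝓞 ℚ) => Ideal.absNorm v.asIdeal) ''
      (FA.Chebotarev.frobSet π X \ {v | Ideal.absNorm v.asIdeal ∣ N})).Infinite := fun hfin => by
    have hI := Set.Finite.biUnion hfin fun q _ => Ideal.finite_setOfPred_absNorm_eq (S := 𝓞 ℚ) q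
    exact hinf ((hI.preimage (f := fun v : HeightOneSpectrum (𝓞 ℚ) => v.asIdeal)
      fun a _ b _ e => HeightOneSpectrum.ext e).subset fun v hv =>
        Set.mem_biUnion (Set.mem_image_of_mem _ hv) rfl)
  refine hIm.mono ?_
  rintro _ ⟨v, ⟨hfr, hv⟩, rfl⟩
  have hq := FA.Chebotarev.absNorm_prime v
  haveI := Fact.mk hq
  set q := Ideal.absNorm v.asIdeal
  have hnd : ∀ {m : ℕ}, m ∣ N → ¬ q ∣ m := fun hm e => hv (e.trans hm)
  have hgood : W.IsGoodPrimeFor q := fun e => hnd
    ((((dvd_mul_right _ p).mul_right x'.den).mul_right y'.den).mul_right _) (Int.natCast_dvd.mp e)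
  have hqp : q ≠ p := fun e => hnd
    ((((dvd_mul_left p _).mul_right x'.den).mul_right y'.den).mul_right _) (e ▸ dvd_rfl)
  obtain ⟨A, hA⟩ := FA.Deform.exists_liesOverPrime hq
  obtain ⟨σ, hσ⟩ := FA.Deform.exists_isFrobeniusAt hq hA
  obtain ⟨hne, hall⟩ := hfr A hA σ hσ
  refine ⟨hq, ?_, fun hloc => ?_, fun i => ?_⟩
  · haveI : CharP (Res A) q := residueField_charP A hq hA
    haveI := redCurve_isElliptic (intCoeff_ratCurve W A) (valuation_Δ_ratCurve W hq hA hgood)
    exact ⟨inferInstance, (redHom_up W hA hgood h'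
      (hnd (((dvd_mul_left x'.den _).mul_right y'.den).mul_right _))
      (hnd ((dvd_mul_left y'.den _).mul_right _))).1⟩
  · obtain ⟨X₀, hfix⟩ := exists_fixed_of_locDiv W hp.out h' hgood hqp
      (hnd (((dvd_mul_left x'.den _).mul_right y'.den).mul_right _))
      (hnd ((dvd_mul_left y'.den _).mul_right _)) hloc hA hσ
    exact hne X₀ hfix
  · obtain ⟨a, c, ha, hr⟩ := hrel i
    obtain ⟨X₁, hX₁⟩ := exists_fixed_of_relation ha hr hall
    have hi : (x i).den * (y i).den ∣ N :=
      (Finset.dvd_prod_of_mem (fun i => (x i).den * (y i).den) (Finset.mem_univ i)).mul_left _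
    exact FA.BashmakovDensity.locDiv_of_exists_fixed (h i) hgood
      (hnd ((dvd_mul_right _ _).trans hi)) (hnd ((dvd_mul_left _ _).trans hi)) hA hσ hX₁

/-- **A point stays outside modulo infinitely many primes where a family is divisible.** -/
theorem infinite_locDiv_family (hp2 : p ≠ 2)
    (hfull : ∀ φ : Submodule.torsionBy ℤ ((ratCurve W).toAffine⁄Qb).Point (p : ℤ) ≃+
        Submodule.torsionBy ℤ ((ratCurve W).toAffine⁄Qb).Point (p : ℤ),
      ∃ σ : GQ, ∀ T, Affine.Point.map σ.toAlgHom T.1 = (φ T).1)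
    {x y : ι → ℚ} (h : ∀ i, (ratCurve W).toAffine.Nonsingular (x i) (y i)) {x' y' : ℚ}
    (h' : (ratCurve W).toAffine.Nonsingular x' y') (e : κ → ι)
    (hrel : ∀ i, ∃ (a : ℤ) (c : κ → ℤ), ¬ (p : ℤ) ∣ a ∧
      a • Affine.Point.some (x i) (y i) (h i) =
        ∑ j, c j • Affine.Point.some (x (e j)) (y (e j)) (h (e j)))
    (hind : ∀ c : Option κ → ℤ, (∃ i, ¬ (p : ℤ) ∣ c i) → ∀ S,
      p • S ≠ c none • Affine.Point.some x' y' h' +
        ∑ j, c (some j) • Affine.Point.some (x (e j)) (y (e j)) (h (e j))) :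
    {q : ℕ | q.Prime ∧ (∃ _ : Fact q.Prime,
      (W.map (Int.castRingHom (ZMod q))).toAffine.Nonsingular (x' : ZMod q) y') ∧
      ¬ LocDiv W p q x' y' ∧ ∀ i, LocDiv W p q (x i) (y i)}.Infinite :=
  infinite_locDiv_family_of_fixed h h' e hrel (exists_fixed_family hp2 hfull hind)

end FA.LinearDependence

end
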