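import Fermat.Agent.Bashmakov.Irreducible

/-!
# Two points over an absolutely irreducible torsion module

Let the `p`-torsion have only the trivial stable subgroups, `-1` among the actions and only scalars
commuting with them, `p` odd. If `p Q₁` and all `p (Q₂ - a Q₁)` are fixed and no `p` times fixed
elements, every translation of `Q₂` is given by an element fixing the torsion and `Q₁`: otherwise
the translation of `Q₂` is a scalar times that of `Q₁`, and a combination has no translations.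
-/

set_option autoImplicit false

noncomputable section

namespace FA.LinearDependence

open FA.Bashmakov

variable {G A : Type*} [Group G] [AddCommGroup A] (act : G →* AddMonoid.End A) {p : ℕ}

/-- **Every translation of the second point fixing the first.** -/
theorem exists_translation_snd (hp : Odd p)
    (hirr : ∀ S : AddSubgroup A, (∀ y ∈ S, y ∈ pTors A p 1) → (∀ σ, ∀ y ∈ S, act σ y ∈ S) →
      (∀ y ∈ S, y = 0) ∨ ∀ y ∈ pTors A p 1, y ∈ S)
    (hneg : ∃ τ, ∀ y ∈ pTors A p 1, act τ y = -y)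
    (hsc : ∀ f : pTors A p 1 →+ pTors A p 1,
      (∀ (σ : G) (x y : pTors A p 1), y.1 = act σ x.1 → (f y).1 = act σ (f x).1) →
      ∃ a : ℤ, ∀ x, (f x).1 = a • x.1)
    {Q₁ Q₂ : A} (h₁ : ∀ σ, act σ (p • Q₁) = p • Q₁) (h₂ : ∀ σ, act σ (p • Q₂) = p • Q₂)
    (hind₁ : ∀ R : A, (∀ σ, act σ R = R) → p • R ≠ p • Q₁)
    (hind₂ : ∀ (a : ℤ) (R : A), (∀ σ, act σ R = R) → p • R ≠ p • (Q₂ - a • Q₁))
    {t : A} (ht : t ∈ pTors A p 1) :
    ∃ g, (∀ y ∈ pTors A p 1, act g y = y) ∧ act g Q₁ = Q₁ ∧ act g Q₂ = Q₂ + t := by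
  have hd : ∀ {Q : A}, (∀ σ, act σ (p • Q) = p • Q) → ∀ σ, act σ Q - Q ∈ pTors A p 1 :=
    fun {Q} hQ σ => by rw [mem_pTors_iff, pow_one, nsmul_sub, ← map_nsmul, hQ, sub_self]
  have htr : ∀ {Q : A}, (∀ σ, act σ (p • Q) = p • Q) →
      (∀ R : A, (∀ σ, act σ R = R) → p • R ≠ p • Q) → ∀ x ∈ pTors A p 1,
      ∃ g, (∀ y ∈ pTors A p 1, act g y = y) ∧ act g Q = Q + x := fun {Q} hQ hP x hx =>
    exists_translation act hp 1 hirr hneg (fun σ => by rw [pow_one]; exact hQ σ)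
      (fun R hR => by rw [pow_one]; exact hP R hR) hx
  have hinv : ∀ (σ : G) (y : A), act σ (act σ⁻¹ y) = y := fun σ y => by
    simpa using act_inv_act act σ⁻¹ y
  have hfix' : ∀ {g : G}, (∀ y ∈ pTors A p 1, act g y = y) →
      ∀ y ∈ pTors A p 1, act g⁻¹ y = y := fun {g} hg y hy => by
    conv_lhs => rw [← hg y hy]
    rw [act_inv_act]
  let S : AddSubgroup A :=
    { carrier := {w | w ∈ pTors A p 1 ∧
        ∃ g, (∀ y ∈ pTors A p 1, act g y = y) ∧ act g Q₁ = Q₁ ∧ act g Q₂ = Q₂ + w}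
      zero_mem' := ⟨zero_mem _, 1, fun y _ => by rw [map_one]; rfl, by rw [map_one]; rfl,
        by rw [map_one, add_zero]; rfl⟩
      add_mem' := fun {v w} ⟨hv, g, hg, hg₁, hg₂⟩ ⟨hw, k, hk, hk₁, hk₂⟩ =>
        ⟨add_mem hv hw, g * k, fun y hy => by rw [act_mul, hk y hy, hg y hy],
          by rw [act_mul, hk₁, hg₁], by rw [act_mul, hk₂, map_add, hg₂, hg w hw, add_assoc]⟩
      neg_mem' := fun {v} ⟨hv, g, hg, hg₁, hg₂⟩ => by
        refine ⟨neg_mem hv, g⁻¹, hfix' hg, ?_, ?_⟩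
        · conv_lhs => rw [← hg₁]
          rw [act_inv_act]
        · have e := congrArg (act g⁻¹) hg₂
          rw [act_inv_act, map_add, hfix' hg v hv] at e
          rw [← sub_eq_add_neg, eq_sub_iff_add_eq]
          exact e.symm }
  have hconj : ∀ {g : G} {Q x : A}, (∀ σ, act σ (p • Q) = p • Q) →
      (∀ y ∈ pTors A p 1, act g y = y) → act g Q = Q + x → ∀ σ,
      act (σ * g * σ⁻¹) Q = Q + act σ x := fun {g Q x} hQ hg hgQ σ => by
    rw [act_mul, act_mul, show act σ⁻¹ Q = Q + (act σ⁻¹ Q - Q) by rw [add_sub_cancel], map_add,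
      hgQ, hg _ (hd hQ σ⁻¹), add_right_comm, add_sub_cancel, map_add, hinv]
  have hconjfix : ∀ {g : G}, (∀ y ∈ pTors A p 1, act g y = y) → ∀ σ,
      ∀ y ∈ pTors A p 1, act (σ * g * σ⁻¹) y = y := fun {g} hg σ y hy => by
    rw [act_mul, act_mul, hg _ (act_mem_pTors act σ⁻¹ hy), hinv]
  have hS : ∀ σ, ∀ w ∈ S, act σ w ∈ S := by
    rintro σ w ⟨hw, g, hg, hg₁, hg₂⟩
    exact ⟨act_mem_pTors act σ hw, _, hconjfix hg σ,
      by simpa using hconj h₁ hg (x := 0) (by rw [add_zero, hg₁]) σ, hconj h₂ hg hg₂ σ⟩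
  rcases hirr S (fun w hw => hw.1) hS with h0 | hall
  swap
  · exact (hall t ht).2
  -- otherwise the translation of the second is a function of that of the first
  choose k hk hk₁ using fun x : pTors A p 1 => htr h₁ hind₁ x.1 x.2
  have huniq : ∀ {g : G} (x : pTors A p 1), (∀ y ∈ pTors A p 1, act g y = y) →
      act g Q₁ = Q₁ + x.1 → act g Q₂ - Q₂ = act (k x) Q₂ - Q₂ := fun {g} x hg hgQ => by
    have hmem : ∀ y ∈ pTors A p 1, act ((k x)⁻¹ * g) y = y := fun y hy => by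
      rw [act_mul, hg y hy, hfix' (hk x) y hy]
    have h := h0 _ ⟨hd h₂ _, (k x)⁻¹ * g, hmem,
      by rw [act_mul, hgQ, ← hk₁ x, act_inv_act], (add_sub_cancel _ _).symm⟩
    rw [sub_eq_zero, act_mul] at h
    have e := congrArg (act (k x)) h
    rw [hinv] at e
    rw [e]
  let f : pTors A p 1 →+ pTors A p 1 := AddMonoidHom.mk' (fun x => ⟨_, hd h₂ (k x)⟩) fun x y => by
    refine Subtype.ext ?_
    show act (k (x + y)) Q₂ - Q₂ = (act (k x) Q₂ - Q₂) + (act (k y) Q₂ - Q₂)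
    rw [← huniq (x + y) (g := k x * k y) (fun z hz => by rw [act_mul, hk y z hz, hk x z hz])
      (by rw [act_mul, hk₁, map_add, hk₁, hk x _ y.2, Submodule.coe_add, add_assoc]), act_mul]
    conv_lhs => rw [show act (k y) Q₂ = Q₂ + (act (k y) Q₂ - Q₂) by rw [add_sub_cancel],
      map_add, hk x _ (hd h₂ (k y))]
    abel
  obtain ⟨a, ha⟩ := hsc f fun σ x y hy => by
    show act (k y) Q₂ - Q₂ = act σ (act (k x) Q₂ - Q₂)
    rw [← huniq y (g := σ * k x * σ⁻¹) (hconjfix (hk x) σ)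
      (by rw [hconj h₁ (hk x) (hk₁ x), hy]),
      hconj h₂ (hk x) (x := act (k x) Q₂ - Q₂) (add_sub_cancel _ _).symm, add_sub_cancel_left]
  obtain ⟨g, hg, hgR⟩ := htr (Q := Q₂ - a • Q₁) (fun σ => by
      rw [nsmul_sub, smul_comm, map_sub, map_zsmul, h₁, h₂]) (hind₂ a) t ht
  have h := huniq ⟨_, hd h₁ g⟩ hg (add_sub_cancel _ _).symm
  have ha' : act g Q₂ - Q₂ = a • (act g Q₁ - Q₁) := h.trans (ha ⟨_, hd h₁ g⟩)
  have hsame : act g (Q₂ - a • Q₁) = Q₂ - a • Q₁ := by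
    rw [map_sub, map_zsmul, eq_add_of_sub_eq ha', zsmul_sub]
    abel
  refine ⟨1, fun y _ => by rw [map_one]; rfl, by rw [map_one]; rfl, ?_⟩
  rw [hsame, left_eq_add] at hgR
  rw [map_one, hgR, add_zero]
  rfl

end FA.LinearDependence

end
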