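import Fermat.Agent.SupportProblem.Irreducible
import Fermat.Agent.Bashmakov.Family

/-!
# A family of points over an absolutely irreducible torsion module

With `-1` among the actions on the `p`-torsion, no stable subgroup but the trivial ones and only
scalars commuting, `p` odd, a family independent modulo `p` is translated by every family of
`p`-torsion by an element fixing that torsion (induction: otherwise the translation of one point is
a combination of those of the others). By the commutator with `-1` and lifting, the same holds for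
`pⁿ`-th parts and the `pⁿ`-torsion.
-/

set_option autoImplicit false

noncomputable section

namespace FA.LinearDependence

open FA.Bashmakov

variable {G A : Type*} [Group G] [AddCommGroup A] (act : G →* AddMonoid.End A) {p : ℕ}
variable {ι : Type*} [Fintype ι]

/-- **Every family of translations by elements fixing the `p`-torsion.** -/
theorem exists_translation_family (hp : Odd p) (hp1 : p ≠ 1)
    (hirr : ∀ S : AddSubgroup A, (∀ y ∈ S, y ∈ pTors A p 1) → (∀ σ, ∀ y ∈ S, act σ y ∈ S) →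
      (∀ y ∈ S, y = 0) ∨ ∀ y ∈ pTors A p 1, y ∈ S)
    (hneg : ∃ τ, ∀ y ∈ pTors A p 1, act τ y = -y)
    (hsc : ∀ f : pTors A p 1 →+ pTors A p 1,
      (∀ (σ : G) (x y : pTors A p 1), y.1 = act σ x.1 → (f y).1 = act σ (f x).1) →
      ∃ a : ℤ, ∀ x, (f x).1 = a • x.1)
    {Q : ι → A} (hQ : ∀ i σ, act σ (p • Q i) = p • Q i)
    (hind : ∀ a : ι → ℤ, (∃ i, ¬ (p : ℤ) ∣ a i) → ∀ R : A, (∀ σ, act σ R = R) →
      p • R ≠ ∑ i, a i • p • Q i)
    (w : ι → pTors A p 1) :
    ∃ g, (∀ y ∈ pTors A p 1, act g y = y) ∧ ∀ i, act g (Q i) = Q i + (w i).1 := by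
  classical
  suffices h : ∀ s : Finset ι, ∀ w : ι → pTors A p 1,
      ∃ g, (∀ y ∈ pTors A p 1, act g y = y) ∧ ∀ i ∈ s, act g (Q i) = Q i + (w i).1 by
    obtain ⟨g, hg, hgQ⟩ := h Finset.univ w
    exact ⟨g, hg, fun i => hgQ i (Finset.mem_univ i)⟩
  intro s
  induction s using Finset.induction with
  | empty => exact fun w => ⟨1, fun y _ => by rw [map_one]; rfl, by simp⟩
  | insert i₀ s hi₀ ih =>
  intro w
  have hd : ∀ i σ, act σ (Q i) - Q i ∈ pTors A p 1 := fun i σ => by
    rw [mem_pTors_iff, pow_one, nsmul_sub, ← map_nsmul, hQ, sub_self]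
  have hinv : ∀ (σ : G) (y : A), act σ (act σ⁻¹ y) = y := fun σ y => by
    simpa using act_inv_act act σ⁻¹ y
  have hfix' : ∀ {g : G}, (∀ y ∈ pTors A p 1, act g y = y) →
      ∀ y ∈ pTors A p 1, act g⁻¹ y = y := fun {g} hg y hy => by
    conv_lhs => rw [← hg y hy]
    rw [act_inv_act]
  have hconj : ∀ {g : G}, (∀ y ∈ pTors A p 1, act g y = y) → ∀ σ,
      (∀ y ∈ pTors A p 1, act (σ * g * σ⁻¹) y = y) ∧
        ∀ i {x : A}, act g (Q i) = Q i + x → act (σ * g * σ⁻¹) (Q i) = Q i + act σ x :=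
    fun {g} hg σ => ⟨fun y hy => by rw [act_mul, act_mul, hg _ (act_mem_pTors act σ⁻¹ hy), hinv],
      fun i x hgQ => by
        rw [act_mul, act_mul, show act σ⁻¹ (Q i) = Q i + (act σ⁻¹ (Q i) - Q i) by
          rw [add_sub_cancel], map_add, hgQ, hg _ (hd i σ⁻¹), add_right_comm, add_sub_cancel,
          map_add, hinv]⟩
  -- the translations of the new point fixing the others
  let S : AddSubgroup A :=
    { carrier := {v | v ∈ pTors A p 1 ∧ ∃ g, (∀ y ∈ pTors A p 1, act g y = y) ∧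
        (∀ i ∈ s, act g (Q i) = Q i) ∧ act g (Q i₀) = Q i₀ + v}
      zero_mem' := ⟨zero_mem _, 1, fun y _ => by rw [map_one]; rfl,
        fun i _ => by rw [map_one]; rfl, by rw [map_one, add_zero]; rfl⟩
      add_mem' := fun {v u} ⟨hv, g, hg, hg₁, hg₂⟩ ⟨hu, k, hk, hk₁, hk₂⟩ =>
        ⟨add_mem hv hu, g * k, fun y hy => by rw [act_mul, hk y hy, hg y hy],
          fun i hi => by rw [act_mul, hk₁ i hi, hg₁ i hi],
          by rw [act_mul, hk₂, map_add, hg₂, hg u hu, add_assoc]⟩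
      neg_mem' := fun {v} ⟨hv, g, hg, hg₁, hg₂⟩ => by
        refine ⟨neg_mem hv, g⁻¹, hfix' hg, fun i hi => ?_, ?_⟩
        · conv_lhs => rw [← hg₁ i hi]
          rw [act_inv_act]
        · have e := congrArg (act g⁻¹) hg₂
          rw [act_inv_act, map_add, hfix' hg v hv] at e
          rw [← sub_eq_add_neg, eq_sub_iff_add_eq]
          exact e.symm }
  have hS : ∀ σ, ∀ v ∈ S, act σ v ∈ S := by
    rintro σ v ⟨hv, g, hg, hg₁, hg₂⟩
    exact ⟨act_mem_pTors act σ hv, _, (hconj hg σ).1,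
      fun i hi => by simpa using (hconj hg σ).2 i (x := 0) (by rw [add_zero, hg₁ i hi]),
      (hconj hg σ).2 i₀ hg₂⟩
  suffices hall : ∀ t ∈ pTors A p 1, t ∈ S by
    obtain ⟨g₁, hg₁, hg₁Q⟩ := ih w
    obtain ⟨hv, g₂, hg₂, hg₂Q, hg₂Q₀⟩ := hall ((w i₀).1 - (act g₁ (Q i₀) - Q i₀))
      (sub_mem (w i₀).2 (hd i₀ g₁))
    refine ⟨g₁ * g₂, fun y hy => by rw [act_mul, hg₂ y hy, hg₁ y hy], fun i hi => ?_⟩
    rcases Finset.mem_insert.mp hi with rfl | hi
    · rw [act_mul, hg₂Q₀, map_add, hg₁ _ hv]; abel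
    · rw [act_mul, hg₂Q i hi, hg₁Q i hi]
  rcases hirr S (fun v hv => hv.1) hS with h0 | hall
  swap
  · exact hall
  -- otherwise it is a combination of those of the others
  choose k hk hkQ using ih
  have huniq : ∀ {g : G} (v : ι → pTors A p 1), (∀ y ∈ pTors A p 1, act g y = y) →
      (∀ i ∈ s, act g (Q i) = Q i + (v i).1) →
      act g (Q i₀) - Q i₀ = act (k v) (Q i₀) - Q i₀ := fun {g} v hg hgQ => by
    have h := h0 _ ⟨hd i₀ _, (k v)⁻¹ * g,
      fun y hy => by rw [act_mul, hg y hy, hfix' (hk v) y hy],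
      fun i hi => by rw [act_mul, hgQ i hi, ← hkQ v i hi, act_inv_act],
      (add_sub_cancel _ _).symm⟩
    rw [sub_eq_zero, act_mul] at h
    have e := congrArg (act (k v)) h
    rw [hinv] at e
    rw [e]
  let Φ : (ι → pTors A p 1) →+ pTors A p 1 :=
    AddMonoidHom.mk' (fun v => ⟨_, hd i₀ (k v)⟩) fun v u => Subtype.ext (by
      show act (k (v + u)) (Q i₀) - Q i₀ =
        (act (k v) (Q i₀) - Q i₀) + (act (k u) (Q i₀) - Q i₀)
      rw [← huniq (v + u) (g := k v * k u)
        (fun y hy => by rw [act_mul, hk u y hy, hk v y hy])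
        (fun i hi => by rw [act_mul, hkQ u i hi, map_add, hkQ v i hi, hk v _ (u i).2,
          Pi.add_apply, Submodule.coe_add, add_assoc]), act_mul]
      conv_lhs => rw [show act (k u) (Q i₀) = Q i₀ + (act (k u) (Q i₀) - Q i₀) by
        rw [add_sub_cancel], map_add, hk v _ (hd i₀ (k u))]
      abel)
  have hout : ∀ i, i ∉ s → ∀ x, Φ (Pi.single i x) = 0 := fun i hi x => Subtype.ext (by
    show act (k (Pi.single i x)) (Q i₀) - Q i₀ = 0
    rw [← huniq (Pi.single i x) (g := 1) (fun y _ => by rw [map_one]; rfl) fun j hj => by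
      rw [Pi.single_eq_of_ne (ne_of_mem_of_not_mem hj hi), ZeroMemClass.coe_zero, add_zero, map_one]
      rfl, map_one]
    exact sub_self _)
  choose a ha using fun i => hsc (Φ.comp (AddMonoidHom.single (fun _ : ι => pTors A p 1) i)) fun σ x y hy => by
    show act (k (Pi.single i y)) (Q i₀) - Q i₀ = act σ (act (k (Pi.single i x)) (Q i₀) - Q i₀)
    rw [← huniq (Pi.single i y) (g := σ * k (Pi.single i x) * σ⁻¹) (hconj (hk _) σ).1
      fun j hj => by
        rw [(hconj (hk _) σ).2 j (hkQ _ j hj)]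
        by_cases hji : j = i
        · subst hji; rw [Pi.single_eq_same, Pi.single_eq_same, hy]
        · rw [Pi.single_eq_of_ne hji, Pi.single_eq_of_ne hji, ZeroMemClass.coe_zero, map_zero],
      (hconj (hk _) σ).2 i₀ (x := act (k (Pi.single i x)) (Q i₀) - Q i₀) (add_sub_cancel _ _).symm,
      add_sub_cancel_left]
  intro t ht
  let c : ι → ℤ := fun i => if i = i₀ then 1 else if i ∈ s then -a i else 0
  have hc₀ : c i₀ = 1 := if_pos rfl
  set R₀ := ∑ i, c i • Q i with hR₀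
  have hunit : ¬ (p : ℤ) ∣ c i₀ := fun h => hp1 (by
    rw [hc₀] at h; exact_mod_cast Int.eq_one_of_dvd_one (by positivity) h)
  have hpR : p ^ 1 • R₀ = ∑ i, c i • p • Q i := by
    rw [pow_one, hR₀, Finset.smul_sum]
    exact Finset.sum_congr rfl fun i _ => smul_comm _ _ _
  obtain ⟨g, hg, hgR⟩ := exists_translation act hp 1 hirr hneg (Q := R₀) (fun σ => by
      rw [hpR, map_sum]
      exact Finset.sum_congr rfl fun i _ => by rw [map_zsmul, hQ])
    (fun R hR => by rw [hpR]; exact hind c ⟨i₀, hunit⟩ R hR) ht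
  let d : ι → pTors A p 1 := fun i => ⟨_, hd i g⟩
  have hΦ : act g (Q i₀) - Q i₀ = ∑ i ∈ s, a i • (d i).1 := by
    rw [huniq d hg fun i _ => (add_sub_cancel _ _).symm]
    show (Φ d).1 = _
    conv_lhs => rw [← Finset.univ_sum_single d, map_sum, AddSubmonoidClass.coe_finsetSum]
    refine ((Finset.sum_subset (Finset.subset_univ s) fun i _ hi => ?_).symm).trans
      (Finset.sum_congr rfl fun i _ => ha i (d i))
    rw [hout i hi, ZeroMemClass.coe_zero]
  have hzero : act g R₀ - R₀ = 0 := by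
    have h1 : act g R₀ - R₀ = ∑ i, c i • (d i).1 := by
      rw [hR₀, map_sum, ← Finset.sum_sub_distrib]
      exact Finset.sum_congr rfl fun i _ => by rw [map_zsmul, ← zsmul_sub]
    rw [h1, ← Finset.sum_subset (Finset.subset_univ (insert i₀ s)), Finset.sum_insert hi₀, hc₀,
      one_zsmul, show (d i₀).1 = act g (Q i₀) - Q i₀ from rfl, hΦ, ← Finset.sum_add_distrib]
    · refine Finset.sum_eq_zero fun i hi => ?_
      simp [c, ne_of_mem_of_not_mem hi hi₀, hi]
    · intro i _ hi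
      simp only [Finset.mem_insert, not_or] at hi
      simp [c, hi.1, hi.2]
  rw [hgR, add_sub_cancel_left] at hzero
  rw [hzero]
  exact zero_mem S

/-- **Every family of translations of `pⁿ`-th parts by elements fixing the `pⁿ`-torsion.** -/
theorem exists_translation_family_pow [Fact p.Prime] {n : ℕ} (hp : Odd p)
    (hirr : ∀ S : AddSubgroup A, (∀ y ∈ S, y ∈ pTors A p 1) → (∀ σ, ∀ y ∈ S, act σ y ∈ S) →
      (∀ y ∈ S, y = 0) ∨ ∀ y ∈ pTors A p 1, y ∈ S)
    (hneg : ∃ τ, ∀ y ∈ pTors A p 1, act τ y = -y)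
    (hsc : ∀ f : pTors A p 1 →+ pTors A p 1,
      (∀ (σ : G) (x y : pTors A p 1), y.1 = act σ x.1 → (f y).1 = act σ (f x).1) →
      ∃ a : ℤ, ∀ x, (f x).1 = a • x.1)
    (c : (Fin 2 → ZMod (p ^ n)) ≃+ pTors A p n)
    {Q : ι → A} (hQ : ∀ i σ, act σ (p ^ n • Q i) = p ^ n • Q i)
    (hind : ∀ a : ι → ℤ, (∃ i, ¬ (p : ℤ) ∣ a i) → ∀ R : A, (∀ σ, act σ R = R) →
      p • R ≠ ∑ i, a i • p ^ n • Q i)
    (t : ι → pTors A p n) :
    ∃ g, (∀ x : pTors A p n, act g x.1 = x.1) ∧ ∀ i, act g (Q i) = Q i + (t i).1 := by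
  refine exists_translations_pow act c hQ (fun m hm w => ?_) t
  have hpQ : ∀ i, p • p ^ m • Q i = p ^ n • Q i := fun i => by
    rw [← mul_nsmul', ← pow_succ', ← hm]
  obtain ⟨h, hh⟩ := hp
  obtain ⟨g, hg, hgQ⟩ := exists_translation_family act ⟨h, hh⟩
    (Fact.out : p.Prime).ne_one hirr hneg hsc
    (Q := fun i => p ^ m • Q i) (fun i σ => by rw [hpQ]; exact hQ i σ)
    (fun a ha R hR he => hind a ha R hR (he.trans
      (Finset.sum_congr rfl fun i _ => by rw [hpQ]))) (fun i => h • w i)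
  obtain ⟨τ₁, hτ₁⟩ := hneg
  obtain ⟨τ, hτ⟩ := exists_neg_pTors act ⟨h, hh⟩ hτ₁ n
  obtain ⟨hk, hkQ⟩ := FA.SupportProblem.commutator_act act (n := n) (by omega) hτ hg
  refine ⟨_, fun x => hk x.1 x.2, fun i => ?_⟩
  have hw := mem_pTors_iff.mp (w i).2
  refine (hkQ (fun σ => by rw [hpQ]; exact hQ i σ) (hgQ i)).trans ?_
  rw [Submodule.coe_smul_of_tower]
  generalize (w i).1 = v at hw ⊢
  rw [pow_one, hh, succ_nsmul, mul_nsmul'] at hw
  rw [sub_eq_iff_eq_add, add_assoc, add_comm v, hw, add_zero]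

end FA.LinearDependence

end
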