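import Fermat.Agent.LinearDependence.Core
import Fermat.Agent.BashmakovDensity.Fibre

/-!
# Primes where one point is divisible and another is not

For independent points modulo `p` some element of Galois fixes a `p`-th part of the first and none
of the second, so by Chebotarev the first is `p` times a point and the second is not modulo
infinitely many primes; the second is then no multiple of the first modulo those primes.
-/

set_option autoImplicit false
set_option linter.style.haveILetI false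

noncomputable section

open WeierstrassCurve NumberField IsDedekindDomain FA.Frob FA.PointDiv
open scoped WeierstrassCurve.Affine Classical

local notation "Qb" => AlgebraicClosure ℚ
local notation "GQ" => AlgebraicClosure ℚ ≃ₐ[ℚ] AlgebraicClosure ℚ

namespace FA.LinearDependence

variable {W : WeierstrassCurve ℤ} [(ratCurve W).IsElliptic] {p : ℕ} [hp : Fact p.Prime]

omit [(ratCurve W).IsElliptic] hp in
theorem up_eq_map (P : (ratCurve W).toAffine.Point) :
    up W P = Affine.Point.map (W' := (ratCurve W).toAffine) (Algebra.ofId ℚ Qb) P := by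
  cases P <;> rfl

/-- Some element of Galois fixes a point of one fibre and none of the other. -/
theorem exists_fixed_pair (hp2 : p ≠ 2)
    (hfull : ∀ φ : Submodule.torsionBy ℤ ((ratCurve W).toAffine⁄Qb).Point (p : ℤ) ≃+
        Submodule.torsionBy ℤ ((ratCurve W).toAffine⁄Qb).Point (p : ℤ),
      ∃ σ : GQ, ∀ T, Affine.Point.map σ.toAlgHom T.1 = (φ T).1)
    {P Q : (ratCurve W).toAffine.Point}
    (hind : ∀ a b : ℤ, ¬ ((p : ℤ) ∣ a ∧ (p : ℤ) ∣ b) → ∀ R, p • R ≠ a • P + b • Q) :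
    ∃ σ : GQ, (∃ X, fibHom W p P σ X = X) ∧ ∀ X, fibHom W p Q σ X ≠ X := by
  obtain ⟨Q₁, hQ₁⟩ := exists_div W hp.out.ne_zero (up W P)
  obtain ⟨Q₂, hQ₂⟩ := exists_div W hp.out.ne_zero (up W Q)
  obtain ⟨c⟩ := FA.Bashmakov.exists_torsion_coord (ratCurve W) p 1
  have hfix : ∀ (R : (ratCurve W).toAffine.Point) (σ : GQ),
      Affine.Point.map (W' := (ratCurve W).toAffine) σ.toAlgHom (up W R) = up W R := fun R σ => by
    rw [up_eq_map]; exact FA.Torsion.map_fixed (ratCurve W) σ R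
  have hfull' := hfull
  rw [← pow_one (p : ℤ)] at hfull'
  obtain ⟨t, ht⟩ : ∃ t : Submodule.torsionBy ℤ ((ratCurve W).toAffine⁄Qb).Point ((p : ℤ) ^ 1),
      t.1 ≠ 0 := ⟨c ![1, 0], fun h => by
    haveI : Fact (1 < p ^ 1) := ⟨by rw [pow_one]; exact hp.out.one_lt⟩
    exact one_ne_zero (congrFun (c.injective ((Subtype.ext h).trans (map_zero c).symm)) 0)⟩
  obtain ⟨σ, hσ, hσ₁, hσ₂⟩ := exists_act_pair (FA.Bashmakov.pointAct (ratCurve W)) hp2 c hfull'
    (Q₁ := Q₁) (Q₂ := Q₂) (fun σ => by rw [hQ₁]; exact hfix P σ)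
    (fun σ => by rw [hQ₂]; exact hfix Q σ)
    (fun a b hab R hR he => by
      obtain ⟨R₀, hR₀⟩ := FA.Thirteen.exists_rat_point (E := ratCurve W) R hR
      refine hind a b hab R₀ (mapHom_injective (algebraMap ℚ Qb) rfl ?_)
      show up W (p • R₀) = up W (a • P + b • Q)
      refine (map_nsmul (up W) p R₀).trans (Eq.trans ?_ (map_add (up W) _ _).symm)
      have hup : up W R₀ = R := (up_eq_map R₀).trans hR₀
      refine (congrArg (p • ·) hup).trans (he.trans ?_)
      rw [hQ₁, hQ₂]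
      exact (congrArg₂ (· + ·) (map_zsmul (up W) a P) (map_zsmul (up W) b Q)).symm)
    (AddEquiv.refl _) 0 t
  rw [ZeroMemClass.coe_zero, add_zero] at hσ₁
  refine ⟨σ, ⟨⟨Q₁, hQ₁⟩, Subtype.ext hσ₁⟩, fun X hX => ht ?_⟩
  have hX' : σ • X.1 = X.1 := congrArg Subtype.val hX
  have hd : σ • (X.1 - Q₂) = X.1 - Q₂ := hσ ⟨X.1 - Q₂, by
    rw [pow_one, Submodule.mem_torsionBy_iff, natCast_zsmul, nsmul_sub, X.2, hQ₂, sub_self]⟩
  rw [FA.Local.gal_smul_sub (ratCurve W) σ, hX',
    show σ • Q₂ = Q₂ + t.1 from hσ₂, sub_right_inj, add_eq_left] at hd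
  exact hd

/-- **A point stays out of the multiples of another modulo infinitely many primes**, given one
element of Galois fixing a point of one fibre and none of the other. -/
theorem infinite_not_mem_zmultiples_of_fixed_pair
    {x y x' y' : ℚ} (h : (ratCurve W).toAffine.Nonsingular x y)
    (h' : (ratCurve W).toAffine.Nonsingular x' y')
    (hpair : ∃ σ : GQ, (∃ X, fibHom W p (.some x y h) σ X = X) ∧
      ∀ X, fibHom W p (.some x' y' h') σ X ≠ X) :
    {q : ℕ | q.Prime ∧
      ¬ ∃ _ : Fact q.Prime,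
        ∃ k : (W.map (Int.castRingHom (ZMod q))).toAffine.Nonsingular (x : ZMod q) y,
        ∃ k' : (W.map (Int.castRingHom (ZMod q))).toAffine.Nonsingular (x' : ZMod q) y',
        Affine.Point.some (x' : ZMod q) (y' : ZMod q) k' ∈
          AddSubgroup.zmultiples (Affine.Point.some (x : ZMod q) (y : ZMod q) k)}.Infinite := by
  set f₁ := fibHom W p (.some x y h) with hf₁
  set f₂ := fibHom W p (.some x' y' h') with hf₂
  have := finite_fib W hp.out.ne_zero (.some x y h)
  have := finite_fib W hp.out.ne_zero (.some x' y' h')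
  set f := f₁.prod f₂ with hf
  let _ : Fintype f.range := Fintype.ofFinite _
  set π := f.rangeRestrict with hπdef
  let X : Set f.range := {g | (∃ Q, g.1.1 Q = Q) ∧ ∀ Q, g.1.2 Q ≠ Q}
  have hX : ∀ g ∈ X, ∀ z, z * g * z⁻¹ ∈ X := fun g ⟨⟨Q, hQ⟩, hne⟩ z => by
    refine ⟨⟨z.1.1 Q, ?_⟩, fun R e => hne (z.1.2.symm R) (z.1.2.injective ?_)⟩
    · show z.1.1 (g.1.1 (z.1.1.symm (z.1.1 Q))) = z.1.1 Q
      rw [Equiv.symm_apply_apply, hQ]
    · rw [Equiv.apply_symm_apply]; exact e
  have hker : IsOpen (π.ker : Set GQ) := by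
    rw [hπdef, MonoidHom.ker_rangeRestrict, hf, MonoidHom.ker_prod, Subgroup.coe_inf]
    exact (isOpen_ker_fibHom W hp.out.ne_zero _).inter (isOpen_ker_fibHom W hp.out.ne_zero _)
  have hd := FA.Chebotarev.hasDirichletDensity_frobSet π (MonoidHom.rangeRestrict_surjective _)
    hker hX
  have hpos : (Nat.card X : ℝ) / Fintype.card f.range ≠ 0 := by
    obtain ⟨σ, hσ₁, hσ₂⟩ := hpair
    have : Nonempty X := ⟨⟨π σ, hσ₁, hσ₂⟩⟩
    exact div_ne_zero (Nat.cast_ne_zero.mpr Nat.card_pos.ne')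
      (Nat.cast_ne_zero.mpr Fintype.card_ne_zero)
  set N : ℕ := W.Δ.natAbs * p * x.den * y.den * x'.den * y'.den with hN
  have hN0 : N ≠ 0 := by
    have hΔ : W.Δ.natAbs ≠ 0 := fun e => (ratCurve W).isUnit_Δ.ne_zero (by
      simp [ratCurve, Int.natAbs_eq_zero.mp e])
    simp [hN, hΔ, hp.out.ne_zero]
  -- the good primes with Frobenius in `X`
  have hT : (FA.Chebotarev.frobSet π X \ {v | Ideal.absNorm v.asIdeal ∣ N}).HasDirichletDensity
      ((Nat.card X : ℝ) / Fintype.card f.range) :=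
    FA.TraceDist.hasDirichletDensity_congr hd (finite_absNorm_dvd hN0)
      fun v hv => ⟨fun h => ⟨h, hv⟩, fun h => h.1⟩
  have hinf := FA.Chebotarev.infinite_of_hasDirichletDensity hT hpos
  have hIm : ((fun v : HeightOneSpectrum (𝓞 ℚ) => Ideal.absNorm v.asIdeal) ''
      (FA.Chebotarev.frobSet π X \ {v | Ideal.absNorm v.asIdeal ∣ N})).Infinite := fun hfin => by
    have hI := Set.Finite.biUnion hfin fun q _ => Ideal.finite_setOfPred_absNorm_eq (S := 𝓞 ℚ) q
    exact hinf ((hI.preimage (f := fun v : HeightOneSpectrum (𝓞 ℚ) => v.asIdeal)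
      fun a _ b _ e => HeightOneSpectrum.ext e).subset fun v hv =>
        Set.mem_biUnion (Set.mem_image_of_mem _ hv) rfl)
  refine hIm.mono ?_
  rintro _ ⟨v, ⟨hfr, hv⟩, rfl⟩
  have hq := FA.Chebotarev.absNorm_prime v
  haveI := Fact.mk hq
  refine ⟨hq, fun ⟨_, k, k', hmem⟩ => ?_⟩
  set q := Ideal.absNorm v.asIdeal
  have hnd : ∀ {m : ℕ}, m ∣ N → ¬ q ∣ m := fun hm e => hv (e.trans hm)
  have hgood : W.IsGoodPrimeFor q := fun e => hnd
    (((((dvd_mul_right _ p).mul_right x.den).mul_right y.den).mul_right x'.den).mul_right y'.den)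
    (Int.natCast_dvd.mp e)
  have hqp : q ≠ p := fun e => hnd
    (((((dvd_mul_left p _).mul_right x.den).mul_right y.den).mul_right x'.den).mul_right y'.den)
    (e ▸ dvd_rfl)
  obtain ⟨A, hA⟩ := FA.Deform.exists_liesOverPrime hq
  obtain ⟨σ, hσ⟩ := FA.Deform.exists_isFrobeniusAt hq hA
  obtain ⟨⟨X₁, hX₁⟩, hX₂⟩ := hfr A hA σ hσ
  obtain ⟨_, k₁, R, hR⟩ := FA.BashmakovDensity.locDiv_of_exists_fixed h hgood
    (hnd ((((dvd_mul_left x.den _).mul_right y.den).mul_right x'.den).mul_right y'.den))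
    (hnd (((dvd_mul_left y.den _).mul_right x'.den).mul_right y'.den)) hA hσ hX₁
  obtain ⟨j, hj⟩ := AddSubgroup.mem_zmultiples_iff.mp hmem
  obtain ⟨X₂, hfix⟩ := exists_fixed_of_locDiv W hp.out h' hgood hqp
    (hnd ((dvd_mul_left x'.den _).mul_right y'.den)) (hnd (dvd_mul_left y'.den _))
    ⟨inferInstance, k', j • R, by rw [smul_comm, hR]; exact hj⟩ hA hσ
  exact hX₂ X₂ hfix

/-- **A point stays out of the multiples of another modulo infinitely many primes.** -/
theorem infinite_not_mem_zmultiples (hp2 : p ≠ 2)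
    (hfull : ∀ φ : Submodule.torsionBy ℤ ((ratCurve W).toAffine⁄Qb).Point (p : ℤ) ≃+
        Submodule.torsionBy ℤ ((ratCurve W).toAffine⁄Qb).Point (p : ℤ),
      ∃ σ : GQ, ∀ T, Affine.Point.map σ.toAlgHom T.1 = (φ T).1)
    {x y x' y' : ℚ} (h : (ratCurve W).toAffine.Nonsingular x y)
    (h' : (ratCurve W).toAffine.Nonsingular x' y')
    (hind : ∀ a b : ℤ, ¬ ((p : ℤ) ∣ a ∧ (p : ℤ) ∣ b) → ∀ R,
      p • R ≠ a • Affine.Point.some x y h + b • Affine.Point.some x' y' h') :
    {q : ℕ | q.Prime ∧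
      ¬ ∃ _ : Fact q.Prime,
        ∃ k : (W.map (Int.castRingHom (ZMod q))).toAffine.Nonsingular (x : ZMod q) y,
        ∃ k' : (W.map (Int.castRingHom (ZMod q))).toAffine.Nonsingular (x' : ZMod q) y',
        Affine.Point.some (x' : ZMod q) (y' : ZMod q) k' ∈
          AddSubgroup.zmultiples (Affine.Point.some (x : ZMod q) (y : ZMod q) k)}.Infinite :=
  infinite_not_mem_zmultiples_of_fixed_pair h h' (exists_fixed_pair hp2 hfull hind)

end FA.LinearDependence

end
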